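import Mathlib.NumberTheory.LSeries.PrimesInAP
import Mathlib.Tactic

/-!
# Erdős's theorem on sum-free subsets

For a prime `p = 3 k + 2` beyond twice all absolute values, the middle third of `ZMod p` is
sum-free and some dilation puts more than a third of the set into it.
-/

set_option autoImplicit false

open Finset

namespace FA.SumFree

/-- The middle third of the residues modulo `3 k + 2`. -/
def middle (k : ℕ) [NeZero (3 * k + 2)] : Finset (ZMod (3 * k + 2)) :=
  univ.filter fun x => k < x.val ∧ x.val ≤ 2 * k + 1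

theorem middle_sumFree (k : ℕ) [NeZero (3 * k + 2)] {x y : ZMod (3 * k + 2)} (hx : x ∈ middle k)
    (hy : y ∈ middle k) : x + y ∉ middle k := by
  simp only [middle, mem_filter, mem_univ, true_and] at hx hy ⊢
  rw [ZMod.val_add]
  rcases Nat.lt_or_ge (x.val + y.val) (3 * k + 2) with h | h
  · rw [Nat.mod_eq_of_lt h]
    omega
  · rw [Nat.mod_eq_sub_mod h, Nat.mod_eq_of_lt (by omega)]
    omega

theorem card_middle (k : ℕ) [NeZero (3 * k + 2)] : #(middle k) = k + 1 := by
  have h : #(middle k) = #(Ico (k + 1) (2 * k + 2)) := by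
    refine card_nbij' (fun x => x.val) (fun i => (i : ZMod (3 * k + 2))) ?_ ?_ ?_ ?_
    · intro x hx
      simp only [Finset.mem_coe, middle, mem_filter, mem_univ, true_and] at hx
      simp only [Finset.mem_coe, mem_Ico]
      omega
    · intro i hi
      simp only [Finset.mem_coe, mem_Ico] at hi
      simp only [Finset.mem_coe, middle, mem_filter, mem_univ, true_and, ZMod.val_natCast,
        Nat.mod_eq_of_lt (show i < 3 * k + 2 by omega)]
      omega
    · intro x _
      exact ZMod.natCast_zmod_val x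
    · intro i hi
      simp only [Finset.mem_coe, mem_Ico] at hi
      show ((i : ℕ) : ZMod (3 * k + 2)).val = i
      rw [ZMod.val_natCast, Nat.mod_eq_of_lt (show i < 3 * k + 2 by omega)]
  rw [h, Nat.card_Ico]
  omega

theorem erdos {S : Finset ℤ} (hne : S.Nonempty) (h0 : (0 : ℤ) ∉ S) :
    ∃ T ⊆ S, #S < 3 * #T ∧ ∀ a ∈ T, ∀ b ∈ T, a + b ∉ T := by
  set B := S.sup Int.natAbs
  obtain ⟨p, hpB, hp, hp3⟩ := Nat.forall_exists_prime_gt_and_eq_mod (q := 3) (a := (2 : ZMod 3))
    (by decide) (2 * B + 2)
  obtain ⟨k, rfl⟩ : ∃ k, p = 3 * k + 2 := by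
    have : p % 3 = 2 := by
      have := congrArg ZMod.val hp3
      rwa [ZMod.val_natCast] at this
    exact ⟨p / 3, by omega⟩
  have := Fact.mk hp
  have hunit : ∀ s ∈ S, (s : ZMod (3 * k + 2)) ≠ 0 := by
    intro s hs h
    rw [ZMod.intCast_zmod_eq_zero_iff_dvd] at h
    have hle : s.natAbs ≤ B := le_sup (f := Int.natAbs) hs
    refine h0 ?_
    rwa [Int.eq_zero_of_dvd_of_natAbs_lt_natAbs h (by omega)] at hs
  have hsum : ∑ x ∈ univ.erase (0 : ZMod (3 * k + 2)),
      #(S.filter fun s : ℤ => x * (s : ZMod (3 * k + 2)) ∈ middle k) = #S * (k + 1) := by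
    simp only [card_filter]
    rw [sum_comm, sum_congr rfl fun s hs => ?_, sum_const, smul_eq_mul]
    rw [← card_filter, ← card_middle k]
    refine card_nbij' (fun x => x * (s : ZMod (3 * k + 2))) (fun y => y / (s : ZMod (3 * k + 2)))
      ?_ ?_ ?_ ?_
    · intro x hx
      exact (mem_filter.1 hx).2
    · intro y hy
      have hy0 : y ≠ 0 := by
        rintro rfl
        simp [middle] at hy
      simp only [Finset.mem_coe] at hy
      simp only [Finset.mem_coe, mem_filter, mem_erase, mem_univ, and_true,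
        div_mul_cancel₀ y (hunit s hs)]
      exact ⟨div_ne_zero hy0 (hunit s hs), hy⟩
    · intro x _
      exact mul_div_cancel_right₀ x (hunit s hs)
    · intro y _
      exact div_mul_cancel₀ y (hunit s hs)
  obtain ⟨x, -, hx⟩ : ∃ x ∈ univ.erase (0 : ZMod (3 * k + 2)),
      #S < 3 * #(S.filter fun s : ℤ => x * (s : ZMod (3 * k + 2)) ∈ middle k) := by
    by_contra hcon
    push Not at hcon
    have h := sum_le_card_nsmul _ _ _ hcon
    rw [← mul_sum, hsum, card_erase_of_mem (mem_univ _), card_univ, ZMod.card, smul_eq_mul,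
      show 3 * k + 2 - 1 = 3 * k + 1 by omega] at h
    have := hne.card_pos
    nlinarith
  refine ⟨_, filter_subset _ S, hx, fun a ha b hb hab => ?_⟩
  have := middle_sumFree k (mem_filter.1 ha).2 (mem_filter.1 hb).2
  refine this ?_
  rw [← mul_add, ← Int.cast_add]
  exact (mem_filter.1 hab).2

end FA.SumFree
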